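import Mathlib
import Fermat.Agent.EC.HW.FibreFrob
import Fermat.Agent.EC.HW1.Done

/-!
# MOONSHOT S52, block K4-a: the natural family `χ(π) = π² - a π + q`

`F` a finite field with `q` elements, `W0` a Weierstrass curve over `F`, `L` a field over `F`,
`π = frobPt F L W0` the `q`-Frobenius of `E(L)`.  For `a : ℤ` we define the additive endomorphism

  `chi F W0 L a = π ∘ π - a • π + q • id`

of `E(L)` and show that it is a natural family in the sense of `EC/HW/FibreKer`
(`natK_chi`, `natk_chi`) and that `chi (generic point)` is an odd point in the sense of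
`EC/HW1/Generic`, hence has its `x`-coordinate in `k(x)` (`isXRat_chi_genericPoint`).
-/

set_option autoImplicit false
set_option linter.unusedSectionVars false

noncomputable section

namespace Fermat.Agent.SW.K4a.Family

open WeierstrassCurve WeierstrassCurve.Affine Polynomial
open Fermat.Agent.EC.HW.GenericPoint Fermat.Agent.EC.HW.FibreKer
  Fermat.Agent.EC.HW.FibreGeneric Fermat.Agent.EC.HW.FibreFrob Fermat.Agent.LR.RedFrob
  Fermat.Agent.EC.HWb

variable (F : Type*) [Field F] [Fintype F] (W0 : WeierstrassCurve F)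

/-- The endomorphism `π² - a π + q` of the group of `L`-points. -/
def chi (L : Type*) [Field L] [Algebra F L] [DecidableEq L] (a : ℤ) :
    ((W0.toAffine⁄L) : Affine L).Point →+ ((W0.toAffine⁄L) : Affine L).Point :=
  (frobPt F L W0).comp (frobPt F L W0) - a • frobPt F L W0
    + (Fintype.card F : ℤ) • AddMonoidHom.id _

theorem chi_apply (L : Type*) [Field L] [Algebra F L] [DecidableEq L] (a : ℤ)
    (P : ((W0.toAffine⁄L) : Affine L).Point) :
    chi F W0 L a P = frobPt F L W0 (frobPt F L W0 P) - a • frobPt F L W0 P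
      + (Fintype.card F : ℤ) • P := by
  simp [chi]

/-- `π² - a π + q` commutes with `Point.map`. -/
theorem map_chi {S L L' : Type*} [CommRing S] [Field L] [Field L'] [Algebra F S] [Algebra F L]
    [Algebra S L] [IsScalarTower F S L] [Algebra F L'] [Algebra S L'] [IsScalarTower F S L']
    [DecidableEq L] [DecidableEq L'] (f : L →ₐ[S] L') (a : ℤ)
    (P : ((W0.toAffine⁄L) : Affine L).Point) :
    Point.map (W' := W0.toAffine) f (chi F W0 L a P) =
      chi F W0 L' a (Point.map (W' := W0.toAffine) f P) := by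
  rw [chi_apply, chi_apply, map_add, map_sub, map_zsmul, map_zsmul, map_frobPt, map_frobPt]

/-- On an eigenvector `π P = n • P`, `χ(π)` acts as `n² - a n + q`. -/
theorem chi_apply_of_eigen (L : Type*) [Field L] [Algebra F L] [DecidableEq L] (a n : ℤ)
    {P : ((W0.toAffine⁄L) : Affine L).Point} (hP : frobPt F L W0 P = n • P) :
    chi F W0 L a P = (n ^ 2 - a * n + (Fintype.card F : ℤ)) • P := by
  rw [chi_apply, hP, map_zsmul, hP, smul_smul, smul_smul, add_smul, sub_smul, pow_two]

variable [W0.IsElliptic] (k : Type*) [Field k] [Algebra F k] {Ω : Type*} [Field Ω] [Algebra F Ω]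
  [Algebra k Ω] [IsScalarTower F k Ω] [DecidableEq k] [DecidableEq Ω] [DecidableEq (KK W0 k)]

theorem natK_chi (a : ℤ) :
    NatK (W0 := W0) (k := k) (Ω := Ω) (chi F W0 (KK W0 k) a) (chi F W0 Ω a) :=
  fun f P => map_chi F W0 f a P

theorem natk_chi (a : ℤ) :
    Natk (W0 := W0) (k := k) (Ω := Ω) (chi F W0 Ω a) (chi F W0 k a) :=
  fun P => map_chi F W0 (Algebra.ofId k Ω) a P

open Fermat.Agent.EC.HW1 in
/-- Sums of odd points are odd. -/
theorem isOdd_add {Q R : (W0.toAffine.baseChange (KF F k W0)).Point} (hQ : IsOdd F k W0 Q)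
    (hR : IsOdd F k W0 R) : IsOdd F k W0 (Q + R) := by
  unfold IsOdd at *
  rw [map_add, hQ, hR, neg_add]

open Fermat.Agent.EC.HW1 in
/-- `χ(π)(generic point)` is odd. -/
theorem isOdd_chi_genericPoint (a : ℤ) :
    IsOdd F k W0 (chi F W0 (KK W0 k) a (genericPoint W0 k)) := by
  rw [chi_apply]
  have h0 : IsOdd F k W0 (genericPoint W0 k) := isOdd_Pgen F k W0
  exact isOdd_add F W0 k (h0.frobPt.frobPt.sub (h0.frobPt.zsmul a)) (h0.zsmul _)

open Fermat.Agent.EC.HW1 in
/-- `χ(π)(generic point)` has its `x`-coordinate in `k(x)`. -/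
theorem isXRat_chi_genericPoint (a : ℤ) :
    IsXRat (k := k) (chi F W0 (KK W0 k) a (genericPoint W0 k)) :=
  (isOdd_chi_genericPoint F W0 k a).isXRat (fixHyp F k W0)

end Fermat.Agent.SW.K4a.Family
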