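import Mathlib

/-!
# MOONSHOT S52, block K4-a, leaf: prime divisors of `n² - a n + q` outside a finite set

For integers `a`, `q ≥ 1` and a natural number `N ≥ 1` there are a prime `lam` **not dividing
`N * q`** and an integer `n` with `lam ∣ n² - a n + q`.  (Take `n = q N t`:
`n² - a n + q = q (q N² t² - a N t + 1)` and the second factor is `≡ 1` modulo every prime
factor of `N q`.)
-/

set_option autoImplicit false

namespace Fermat.Agent.SW.K4a.Primes

/-- A prime outside `N * q` dividing a value of `n² - a n + q`. -/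
theorem exists_prime_dvd_quadratic (a : ℤ) (q N : ℕ) (hq : 0 < q) (hN : 0 < N) :
    ∃ (lam : ℕ) (n : ℤ), lam.Prime ∧ ¬ lam ∣ N * q ∧
      (lam : ℤ) ∣ n ^ 2 - a * n + q := by
  -- `M = N q`, `t = |a| + 1`, `h = q M² t² - a M t + 1 ≥ 2`
  set M : ℤ := (N : ℤ) * q with hM
  have hMpos : 0 < M := by positivity
  set t : ℤ := |a| + 1 with ht
  have htpos : 0 < t := by positivity
  set h : ℤ := q * M ^ 2 * t ^ 2 - a * M * t + 1 with hh
  have hqpos : (0 : ℤ) < q := by exact_mod_cast hq
  have h2 : 2 ≤ h := by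
    have h1 : 1 ≤ (q : ℤ) * M * t - a := by
      have : t ≤ (q : ℤ) * M * t := by
        have : (1 : ℤ) ≤ q * M := by nlinarith
        nlinarith
      have ha : a ≤ |a| := le_abs_self a
      linarith
    have : h = M * t * ((q : ℤ) * M * t - a) + 1 := by rw [hh]; ring
    rw [this]
    have : 1 ≤ M * t := by nlinarith
    nlinarith
  have hne : h.natAbs ≠ 1 := by
    intro h1
    have : h = 1 ∨ h = -1 := Int.natAbs_eq_iff.mp h1 |>.imp id id
    omega
  obtain ⟨lam, hlam, hdvd⟩ := Nat.exists_prime_and_dvd hne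
  have hdvd' : (lam : ℤ) ∣ h := Int.natCast_dvd.mpr hdvd
  refine ⟨lam, q * M * t, hlam, ?_, ?_⟩
  · intro hlamM
    have hlamM' : (lam : ℤ) ∣ M := by
      rw [hM]
      exact_mod_cast hlamM
    have h1 : (lam : ℤ) ∣ 1 := by
      have e : (1 : ℤ) = h - M * (q * M * t ^ 2 - a * t) := by rw [hh]; ring
      rw [e]
      exact dvd_sub hdvd' (Dvd.dvd.mul_right hlamM' _)
    have : lam ∣ 1 := by exact_mod_cast h1
    exact hlam.one_lt.ne' (Nat.dvd_one.mp this)
  · have e : ((q : ℤ) * M * t) ^ 2 - a * ((q : ℤ) * M * t) + q = q * h := by rw [hh]; ring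
    rw [e]
    exact Dvd.dvd.mul_left hdvd' _

end Fermat.Agent.SW.K4a.Primes
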