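import Mathlib
import Fermat.Agent.SW.K4a.Primes
import Fermat.Agent.SW.K4a.Family
import Fermat.Agent.EC.HW.FibreMain
import Fermat.Agent.EC.HW.FibreDegen2
import Fermat.Agent.EC.HW.Export

/-!
# MOONSHOT S52, block K4-a: Cayley–Hamilton for the Frobenius of an elliptic curve over a finite field

`F` a finite field with `q` elements, `k` an algebraically closed extension, `W` a Weierstrass
curve over `F` with `Δ ≠ 0`, `π = frobPt F k W`, `a = q + 1 - # W(F)`.  Then on **all** of `E(k)`

  `π (π Q) - a • π Q + q • Q = 0`        (`frob_charEq`).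

Proof (points only).  `χ = π² - a π + q` is a natural family (`Family.natK_chi`, `natk_chi`) and
`χ (generic point)` is odd, hence `x`-rational with a primitive pair `p`.
* If `max deg p > 0`, the fibre count `FibreMain.card_ker_mul_pow_eq` shows that `ker χ` on `E(k)`
  is finite.  But the Hasse–Weil kernel count `(★)` (`Export.star`) produces, for a prime `lam`
  outside `q · # ker χ` dividing a value `n² - a n + q` (`Primes.exists_prime_dvd_quadratic`), a
  point `P ≠ 0` with `lam • P = 0`, `π P = n • P`; then `χ P = (n² - a n + q) • P = 0` and `P` is a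
  point of order `lam` in `ker χ`: contradiction with Lagrange.
* So `max deg p = 0`, `χ (generic point)` is `0` or constant, and `FibreDegen2.ker_eq_top_of_const`
  gives `χ = 0` on `E(k)`.
No restriction on the characteristic; general Weierstrass equations.
-/

set_option autoImplicit false
set_option linter.style.haveILetI false
set_option linter.unusedSectionVars false

open WeierstrassCurve WeierstrassCurve.Affine Polynomial

namespace Fermat.Agent.SW.K4a.Main

open Fermat.Agent.LR.RedFrob Fermat.Agent.EC.HWb Fermat.Agent.EC.HW.GenericPoint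
  Fermat.Agent.EC.HW.FibreKer Fermat.Agent.EC.HW.FibreGeneric Fermat.Agent.SW.K4a.Family

variable (F k : Type*) [Field F] [Fintype F] [Field k] [Algebra F k] (W : WeierstrassCurve F)

section Plug

variable [W.IsElliptic] [DecidableEq (KK W k)] [DecidableEq k] [IsAlgClosed k]

/-- If `χ (generic point)` has positive height then `ker χ` on `E(k)` is finite. -/
theorem finite_ker_chi (l : ℕ) [ExpChar k l] (a : ℤ) {p : Fin 2 → k[X]}
    (hp : XRepBy (chi F W (KK W k) a (genericPoint W k)) p) (hcop : IsCoprime (p 0) (p 1))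
    (hd : 0 < max (p 0).natDegree (p 1).natDegree) : Finite (chi F W k a).ker := by
  classical
  obtain ⟨m, hm⟩ := Fermat.Agent.EC.HW.FibreMain.card_ker_mul_pow_eq
    (Ω := AlgebraicClosure (KK W k)) l
    (IsScalarTower.toAlgHom k (KK W k) (AlgebraicClosure (KK W k)))
    (natK_chi F W k a) (natk_chi F W k a) (p := p) hp hcop hd
  apply Nat.finite_of_card_ne_zero
  intro h0
  rw [h0, zero_mul] at hm
  omega

/-- If `χ (generic point)` has height zero then `χ = 0` on `E(k)`. -/
theorem chi_eq_zero_of_height_zero (a : ℤ) {p : Fin 2 → k[X]} (hprim : IsPrim p)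
    (hp : XRepBy (chi F W (KK W k) a (genericPoint W k)) p)
    (hd : max (p 0).natDegree (p 1).natDegree = 0) (Q : (W.toAffine⁄k).Point) :
    chi F W k a Q = 0 := by
  classical
  have hinj := Fermat.Agent.EC.HW1.algebraMap_injective_KF F k W
  have h0 : ptHeight (k := k) (chi F W (KK W k) a (genericPoint W k)) = 0 := by
    rw [ptHeight_eq hinj hprim hp]
    exact hd
  have hQ0 : Fermat.Agent.EC.HW.FibreDegen2.IsConstAtGeneric (chi F W (KK W k) a) := by
    rcases eq_zero_or_const_of_ptHeight_eq_zero hinj ⟨p, hprim, hp⟩ h0 with h | ⟨c, y, h, hQ⟩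
    · exact Or.inl h
    · right
      obtain ⟨b, hb⟩ := exists_y_const (W.baseChange k) c y h.1
      subst hb
      exact ⟨c, b, h, hQ⟩
  exact Fermat.Agent.EC.HW.FibreDegen2.ker_eq_top_of_const
    (IsScalarTower.toAlgHom k (KK W k) (AlgebraicClosure (KK W k)))
    (natK_chi F W k a) (natk_chi F W k a) hQ0 Q

end Plug

/-- **Cayley–Hamilton for the Frobenius**: `π² - (q + 1 - # W(F)) π + q = 0` on `E(k)`. -/
theorem frob_charEq [DecidableEq k] [IsAlgClosed k] (hΔ : (W.map (algebraMap F k)).Δ ≠ 0)
    (Q : (W.toAffine⁄k).Point) :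
    frobPt F k W (frobPt F k W Q)
      - ((Fintype.card F : ℤ) + 1 - Nat.card W.toAffine.Point) • frobPt F k W Q
      + (Fintype.card F : ℤ) • Q = 0 := by
  classical
  haveI : W.IsElliptic := Fermat.Agent.EC.HW.Export.isElliptic_of_map F k W hΔ
  obtain ⟨l, hl, hchar⟩ := Fermat.Agent.EC.HW.Export.exists_prime_charP F
  haveI := hchar
  haveI : Fact l.Prime := ⟨hl⟩
  haveI : CharP k l := charP_of_injective_algebraMap (algebraMap F k).injective l
  haveI : ExpChar k l := ExpChar.prime hl
  set a : ℤ := (Fintype.card F : ℤ) + 1 - Nat.card W.toAffine.Point with ha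
  rw [← chi_apply]
  obtain ⟨p, hprim, hp⟩ := isXRat_chi_genericPoint F W k a
  have hcop : IsCoprime (p 0) (p 1) := (isPrim_pair_iff p).mp hprim
  rcases Nat.eq_zero_or_pos (max (p 0).natDegree (p 1).natDegree) with hd | hd
  · exact chi_eq_zero_of_height_zero F k W a hprim hp hd Q
  · exfalso
    haveI hfin : Finite (chi F W k a).ker := finite_ker_chi F k W l a hp hcop hd
    have hNpos : 0 < Nat.card (chi F W k a).ker := Nat.card_pos
    obtain ⟨lam, n, hlam, hndvd, hdvd⟩ :=
      Fermat.Agent.SW.K4a.Primes.exists_prime_dvd_quadratic a (Fintype.card F)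
        (Nat.card (chi F W k a).ker) Fintype.card_pos hNpos
    -- `lam` is invertible in `F`
    have hlamF : (lam : F) ≠ 0 := by
      intro h0
      have h1 : l ∣ lam := (CharP.cast_eq_zero_iff F l lam).mp h0
      have h2 : lam = l := ((Nat.prime_dvd_prime_iff_eq hl hlam).mp h1).symm
      apply hndvd
      rw [h2]
      apply Dvd.dvd.mul_left
      obtain ⟨r', -, hcard⟩ := FiniteField.card F l
      rw [hcard]
      exact dvd_pow_self l r'.ne_zero
    -- an eigenvector of order `lam`
    obtain ⟨P, hP0, hlamP, hπP⟩ :=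
      (Fermat.Agent.EC.HW.Export.star F k W hΔ n hlam hlamF).mpr hdvd
    have hχP : chi F W k a P = 0 := by
      rw [chi_apply_of_eigen F W k a n hπP]
      obtain ⟨c, hc⟩ := hdvd
      rw [hc, mul_smul, smul_comm, natCast_zsmul, hlamP, smul_zero]
    -- Lagrange
    haveI : Fact lam.Prime := ⟨hlam⟩
    have hord : addOrderOf P = lam := addOrderOf_eq_prime hlamP hP0
    have hord' : addOrderOf (⟨P, hχP⟩ : (chi F W k a).ker) = lam := by
      rw [← hord]
      exact AddSubgroup.addOrderOf_mk _ _
    apply hndvd
    apply Dvd.dvd.mul_right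
    rw [← hord']
    exact addOrderOf_dvd_natCard _

/-- The statement of `frob_charEq` at universe `0`, as a `Prop` (contract shape for block K4). -/
def FrobCharEq : Prop :=
  ∀ (F k : Type) [Field F] [Fintype F] [Field k] [Algebra F k] [IsAlgClosed k] [DecidableEq k]
    (W : WeierstrassCurve F) (_ : (W.map (algebraMap F k)).Δ ≠ 0) (Q : (W.toAffine⁄k).Point),
    frobPt F k W (frobPt F k W Q)
      - ((Fintype.card F : ℤ) + 1 - Nat.card W.toAffine.Point) • frobPt F k W Q
      + (Fintype.card F : ℤ) • Q = 0

theorem frobCharEq : FrobCharEq :=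
  fun F k _ _ _ _ _ _ W hΔ Q => frob_charEq F k W hΔ Q

end Fermat.Agent.SW.K4a.Main
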